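/-
S48 block BB, sub-block V (architect helper76), leaf B5 (helper145):
`modularFunctionFieldFull N` is the rational model of the function field of `Γ₀(N) \ ℍ`.
-/
import Fermat.Agent.S48.BB.U.Basic

set_option autoImplicit false

noncomputable section

namespace Fermat.Agent.S48.BB.V

open ModularCurve CongruenceSubgroup IntermediateField Polynomial
open Fermat.Agent.S24 Fermat.Agent.S24.B Fermat.Agent.GAL.Mult
  Fermat.Agent.S18.Descent
open scoped MatrixGroups

/-- an element of `modularFunctionFieldFull N` as an element of `FN N` -/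
private def lvlOfQ (N : ℕ) [NeZero N] (f : LaurentSeries ℚ) (hf : f ∈ modularFunctionFieldFull N) :
    FN N := ⟨coeffEmb Kbar f, coeffEmb_mem_laurentBaseChange Kbar hf⟩

private theorem realises_lvlOfQ (N : ℕ) [NeZero N] (f : LaurentSeries ℚ)
    (hf : f ∈ modularFunctionFieldFull N) : Realises N (PsiL N (lvlOfQ N f hf)) f := by
  unfold Realises
  rw [texpLL_PsiL]
  rfl

private theorem eq_PsiL_of_realises (N : ℕ) [NeZero N] (f : LaurentSeries ℚ)
    (hf : f ∈ modularFunctionFieldFull N) (g : LL N) (hg : Realises N g f) :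
    g = PsiL N (lvlOfQ N f hf) :=
  texpLL_injective (hg.trans (realises_lvlOfQ N f hf).symm)

/-- FINAL HOME `V/LvlFull.lean`. -/
theorem isLvl_full (N : ℕ) [NeZero N] : IsLvl (modularFunctionFieldFull N) (Gamma0 N) N where
  j_mem := by
    have h := jqd_mem_full N (one_dvd N)
    rwa [qExpand_one_apply] at h
  fg := ⟨(finite_divisorExpansions N).toFinset, by
    rw [Set.Finite.coe_toFinset]
    rfl⟩
  real f hf := ⟨_, realises_lvlOfQ N f hf⟩
  inv f hf g hg γ hγ := by
    rw [eq_PsiL_of_realises N f hf g hg]
    exact smul_PsiL_of_mem_Gamma0 γ hγ _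
  stab γ h := by
    apply mem_Gamma0_of_smul_PsiL
    intro f
    induction f using U.FB_induction with
    | hQ f => exact h f.1 f.2 _ (realises_lvlOfQ N f.1 f.2)
    | hc c => rw [AlgHom.commutes, smul_algebraMap_Kbar_LL]
    | hadd f g hf hg => rw [map_add, smul_add, hf, hg]
    | hmul f g hf hg => rw [map_mul, smul_mul', hf, hg]
    | hinv f hf => rw [map_inv₀, smul_inv'', hf]

end Fermat.Agent.S48.BB.V

end
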