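/-
S48, block BB, sub-block V (architect helper76; this file helper230).  TASK BB-V-B4, part 1.

Clone of `S18/Vert/AnyBase.lean` with an abstract hypothesis: for `x` in the Gauss ring of `F` with
transcendental reduction, such that the Gauss ring is integral over its intersection with `K(x)`,
the integral closure of `A[x]` in `F` is the intersection of the integral closure of `K[x]` with
the Gauss ring.
-/
import Fermat.Agent.S18.Vert.AnyBase

set_option autoImplicit false
set_option linter.unusedSectionVars false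

noncomputable section

namespace Fermat.Agent.S48.BB.V

open ModularCurve Polynomial IntermediateField Fermat.Agent.S18.Vert

variable {K : Type*} [Field K] [CharZero K] {A : ValuationSubring K} [IsDiscreteValuationRing A]
variable {F : IntermediateField K (LaurentSeries K)}
variable (hq : IsQuot A F)
variable (x : gaussVal A F hq)
variable (hx : Transcendental (IsLocalRing.ResidueField A) (gaussRes hq x))
variable (hx' : ∀ f : gaussVal A F hq, ((algebraMap K⟮(x : F)⟯ F).comp
  ((gaussVal A F hq).comap (algebraMap K⟮(x : F)⟯ F)).subtype).IsIntegralElem (f : F))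

open scoped IntermediateField.algebraAdjoinAdjoin in
include hx hx' in
/-- **The integral closure of `A[x]` is `(integral closure of K[x]) ∩ O_w`.** -/
theorem isIntegralElem_evA_iff' (y : F) :
    (evA A (x : F)).IsIntegralElem y ↔
      IsIntegral (Algebra.adjoin K {(x : F)}) y ∧ y ∈ gaussVal A F hq := by
  constructor
  · intro h
    refine ⟨isIntegral_adjoin_of_evA _ _ h, ?_⟩
    obtain ⟨P, hP, hPy⟩ := h
    let θ : A[X] →+* gaussVal A F hq :=
      (evA A (x : F)).codRestrict (gaussVal A F hq).toSubring (evA_mem_gaussVal hq x)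
    have h1 : IsIntegral (gaussVal A F hq) y :=
      ⟨P.map θ, hP.map θ, by rw [eval₂_map]; exact hPy⟩
    obtain ⟨z, hz⟩ := IsIntegrallyClosed.isIntegral_iff.mp h1
    rw [← hz]; exact z.2
  · rintro ⟨h1, h2⟩
    have hxt : Transcendental K (x : F) := transcendental_of_gaussRes hq x hx
    have : UniqueFactorizationMonoid (Algebra.adjoin K {(x : F)}) :=
      hxt.uniqueFactorizationMonoid_adjoin
    let _ : Algebra ((gaussVal A F hq).comap (algebraMap K⟮(x : F)⟯ F)) F :=
      ((algebraMap K⟮(x : F)⟯ F).comp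
        ((gaussVal A F hq).comap (algebraMap K⟮(x : F)⟯ F)).subtype).toAlgebra
    have : IsScalarTower ((gaussVal A F hq).comap (algebraMap K⟮(x : F)⟯ F)) K⟮(x : F)⟯ F :=
      IsScalarTower.of_algebraMap_eq (fun _ => rfl)
    have h3 : IsIntegral ((gaussVal A F hq).comap (algebraMap K⟮(x : F)⟯ F)) y :=
      hx' ⟨y, h2⟩
    have hcoef : ∀ i, algebraMap K⟮(x : F)⟯ F ((minpoly K⟮(x : F)⟯ y).coeff i) ∈
        (evA A (x : F)).range := by
      intro i
      obtain ⟨⟨r, hr⟩, ⟨o, ho⟩⟩ := minpoly_coeff_mem_of_two (E := K⟮(x : F)⟯)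
        (R₁ := Algebra.adjoin K {(x : F)})
        (R₂ := (gaussVal A F hq).comap (algebraMap K⟮(x : F)⟯ F)) y h1 h3 i
      have hr' : (r : F) = algebraMap K⟮(x : F)⟯ F ((minpoly K⟮(x : F)⟯ y).coeff i) := by
        rw [← hr]; rfl
      have ho' : algebraMap K⟮(x : F)⟯ F ((minpoly K⟮(x : F)⟯ y).coeff i) ∈ gaussVal A F hq := by
        rw [← ho]; exact o.2
      have hr2 : (r : F) ∈ (aeval (R := K) (x : F)).range := by
        rw [← Algebra.adjoin_singleton_eq_range_aeval]; exact r.2
      obtain ⟨p, hp⟩ := hr2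
      have hp' : aeval (x : F) p = (r : F) := hp
      rw [← hr', ← hp'] at ho' ⊢
      obtain ⟨c, hc⟩ := exists_map_subtype_eq A p ((aeval_mem_gaussVal_iff hq x hx p).mp ho')
      exact ⟨c, by rw [evA_eq_aeval, hc]⟩
    have hlift : (minpoly K⟮(x : F)⟯ y).map (algebraMap K⟮(x : F)⟯ F) ∈
        lifts (evA A (x : F)) := by
      rw [lifts_iff_coeff_lifts]
      intro n
      rw [coeff_map]
      exact hcoef n
    have hyE : IsIntegral K⟮(x : F)⟯ y := h1.tower_top
    obtain ⟨Q, hQ, -, hQm⟩ := lifts_and_natDegree_eq_and_monic hlift ((minpoly.monic hyE).map _)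
    refine ⟨Q, hQm, ?_⟩
    rw [← eval_map, hQ, eval_map, ← aeval_def, minpoly.aeval]

open scoped IntermediateField.algebraAdjoinAdjoin in
include hx hx' in
/-- The Gauss ring is the localisation of the integral closure of `A[x]` at the polynomials in `x`
with nonzero reduction. -/
theorem exists_integral_div_base' (f : gaussVal A F hq) :
    ∃ (c : A[X]) (b : F), c.map (IsLocalRing.residue A) ≠ 0 ∧
      (evA A (x : F)).IsIntegralElem b ∧ (f : F) * evA A (x : F) c = b := by
  -- `f` is algebraic over `K(x)`, hence over `K[x]`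
  have h1 : IsIntegral K⟮(x : F)⟯ (f : F) := by
    obtain ⟨P, hP, hPf⟩ := hx' f
    refine ⟨P.map ((gaussVal A F hq).comap (algebraMap K⟮(x : F)⟯ F)).subtype, hP.map _, ?_⟩
    rw [eval₂_map]
    exact hPf
  have h2 : IsAlgebraic (Algebra.adjoin K {(x : F)}) (f : F) :=
    (IsFractionRing.isAlgebraic_iff (Algebra.adjoin K {(x : F)}) K⟮(x : F)⟯ F).mpr h1.isAlgebraic
  obtain ⟨r, hr0, hr⟩ := h2.exists_integral_multiple
  have hr2 : (r : F) ∈ (aeval (R := K) (x : F)).range := by
    rw [← Algebra.adjoin_singleton_eq_range_aeval]; exact r.2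
  obtain ⟨p, hp⟩ := hr2
  have hp' : aeval (x : F) p = (r : F) := hp
  have hp0 : p ≠ 0 := by
    rintro rfl
    rw [map_zero] at hp'
    exact hr0 (Subtype.ext hp'.symm)
  obtain ⟨a, c, ha, hc, hcr⟩ := exists_smul_primitive (A := A) p hp0
  refine ⟨c, _, hcr, ?_, rfl⟩
  rw [isIntegralElem_evA_iff' hq x hx hx']
  refine ⟨?_, mul_mem f.2 (evA_mem_gaussVal hq x c)⟩
  have h3 : (f : F) * evA A (x : F) c = algebraMap (Algebra.adjoin K {(x : F)}) F
      (algebraMap K (Algebra.adjoin K {(x : F)}) a) * (r • (f : F)) := by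
    rw [evA_eq_aeval, hc, map_mul, aeval_C, hp',
      ← IsScalarTower.algebraMap_apply K (Algebra.adjoin K {(x : F)}) F, Algebra.smul_def]
    change _ = _ * ((r : F) * (f : F))
    ring
  rw [h3]
  exact isIntegral_algebraMap.mul hr

end Fermat.Agent.S48.BB.V

end
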