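/-
S48, block BB, sub-block V (architect helper76; this file helper230).  TASK BB-V-B4, part 2.

`GoodRed.GaussData` for the Gauss valuation ring of a field `K(j) ⊆ F ⊆ K((q))`, from integrality
over (a subfield of) `K(j)` and a trace-one element: clone of `S18/Vert/GaussData.lean` with abstract
hypotheses.
-/
import Fermat.Agent.S48.BB.V.AnyBase
import Fermat.Agent.S18.Vert.GaussData
import Fermat.Agent.S18.Vert.TraceAbs
import Fermat.Agent.S48.BB.KL.Defs

set_option autoImplicit false
set_option linter.unusedSectionVars false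
set_option linter.style.haveILetI false

noncomputable section

namespace Fermat.Agent.S48.BB.V

open ModularCurve IntermediateField Polynomial Fermat.Agent.S18.Vert

/-- **`GaussData` from integrality over `K(j)` and a trace-one element.**  `E₁` is any field mapping
into `K(j) ⊆ F`. -/
theorem hasGaussData_of {K : Type*} [Field K] [CharZero K] {A : ValuationSubring K}
    [IsDiscreteValuationRing A] {F : IntermediateField K (LaurentSeries K)}
    (hj : jqModC K ∈ F) (hq : IsQuot A F)
    {E₁ : Type*} [Field E₁] [Algebra E₁ F] [FiniteDimensional E₁ F]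
    (hE₁ : ∀ e : E₁, algebraMap E₁ F e ∈ K⟮(⟨jqModC K, hj⟩ : F)⟯)
    (hAE : ∀ a : A, ∃ e : E₁, algebraMap E₁ F e = algebraMap K F (a : K))
    (hint : ∀ y ∈ gaussVal A F hq, ((algebraMap E₁ F).comp
      ((gaussVal A F hq).comap (algebraMap E₁ F)).subtype).IsIntegralElem y)
    (y₀ : F) (hy₀ : y₀ ∈ gaussVal A F hq) (htr : Algebra.trace E₁ F y₀ = 1) :
    KL.HasGaussData A F hj hq := by
  intro x hx hjx inst1 inst2 π hπ
  letI : Algebra E₁ K⟮(x : F)⟯ :=
    ((algebraMap E₁ F).codRestrict K⟮(x : F)⟯.toSubfield.toSubring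
      (fun e => adjoin_simple_le_iff.mpr hjx (hE₁ e))).toAlgebra
  haveI : IsScalarTower E₁ K⟮(x : F)⟯ F := IsScalarTower.of_algebraMap_eq fun _ => rfl
  have hx' : ∀ f : gaussVal A F hq, ((algebraMap K⟮(x : F)⟯ F).comp
      ((gaussVal A F hq).comap (algebraMap K⟮(x : F)⟯ F)).subtype).IsIntegralElem (f : F) :=
    fun f => isIntegralElem_comap_of_tower (gaussVal A F hq) (f : F) (hint f f.2)
  have hgen : algebraMap K⟮(x : F)⟯ F (AdjoinSimple.gen K (x : F)) = (x : F) :=
    AdjoinSimple.algebraMap_gen K (x : F)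
  obtain ⟨ϖ, hϖ⟩ := hAE π
  obtain ⟨y₁, hy₁, hy₁'⟩ := exists_trace_not_mem (E₁ := E₁) (E₂ := K⟮(x : F)⟯) (E₃ := F) (E₄ := F)
    (gaussVal A F hq) hint ϖ (by rw [hϖ]; exact inv_unif_notMem hq hπ) y₀ hy₀ htr
  rw [hϖ] at hy₁'
  have hy₁m : y₁ ∈ gaussVal A F hq := hy₁
  exact
  { algebraMap_mem := fun a => by
      rw [algebraMap_algebraMap_eq, ← coe_gaussC' hq]
      exact Subtype.mem _
    inv_unif_notMem := by
      rw [algebraMap_algebraMap_eq]
      exact inv_unif_notMem hq hπ
    unif := fun y hy hy' => by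
      rw [algebraMap_algebraMap_eq]
      exact exists_eq_unif_mul hq hπ y hy hy'
    gauss := fun p hp => by
      rw [algebraMap_aeval_eq_evA, hgen]
      have h1 := gaussRes_evG_ne_zero hq x hx p (map_residue_ne_zero_of_isPrim hπ hp)
      rw [← isUnit_iff_gaussRes_ne_zero hq] at h1
      have h2 : (evG hq x p : F) = evA A (x : F) p := coe_evG hq _ p
      refine ⟨by rw [← h2]; exact Subtype.mem _, ?_⟩
      obtain ⟨v, hv⟩ := h1
      have h3 : ((v : gaussVal A F hq) : F) * (((v⁻¹ : (gaussVal A F hq)ˣ) : gaussVal A F hq) : F)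
          = 1 := congrArg (Subtype.val : gaussVal A F hq → F) (Units.mul_inv v)
      rw [hv, h2] at h3
      rw [← eq_inv_of_mul_eq_one_right h3]
      exact Subtype.mem _
    integral := fun y hy => by
      obtain ⟨c, b, hc, hb, hyb⟩ := exists_integral_div_base' hq x hx hx' ⟨y, hy⟩
      refine ⟨c, isPrim_of_map_residue_ne_zero hπ hc, ?_⟩
      rw [GoodRed.IntO, comp_aeval_eq_evA, algebraMap_aeval_eq_evA, hgen, mul_comm]
      rw [← hyb] at hb
      exact hb
    sep := fun y hy h => by
      rw [algebraMap_algebraMap_eq] at h ⊢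
      by_cases hy' : y⁻¹ ∈ gaussVal A F hq
      · by_cases hy0 : y = 0
        · exact ⟨0, (gaussVal A F hq).zero_mem, by rw [hy0, mul_zero]⟩
        exfalso
        apply hy₁'
        obtain ⟨w, hw, hwt⟩ := h (y⁻¹ * y₁) ((gaussVal A F hq).mul_mem _ _ hy' hy₁m)
        rw [mul_inv_cancel_left₀ hy0] at hwt
        exact ⟨w, hw, hwt⟩
      · exact exists_eq_unif_mul hq hπ y hy hy' }

end Fermat.Agent.S48.BB.V

end
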