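/-
S48, block BB, sub-block V (vertical input).  Architect and owner of this file: helper76.

The field `L0 N A` : all `y ∈ LL N` fixed by `Γ(N)` such that the `t`-expansions of ALL the
`SL(2,ℤ)`-translates of `y` have coefficients in `K` and are quotients of series with coefficients
in the discrete valuation ring `A` of `K ⊆ ℚ̄`.  It is an `SL(2,ℤ)`-stable subfield of `LL N`, the
`t`-expansion is an integral embedding `phi0 : IntEmb A (L0 N A)` and the Gauss valuation ring
`V0 = phi0.val` is stable under `T`.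
-/
import Fermat.Agent.GAL.Mult.Adm
import Fermat.Agent.S36.Mod.GaussEmb.Funct
import Fermat.Agent.S18.Descent.Union

set_option autoImplicit false
set_option linter.unusedSectionVars false

noncomputable section

namespace Fermat.Agent.S48.BB.V

open ModularCurve CongruenceSubgroup
open Fermat.Agent.S24 Fermat.Agent.S24.B Fermat.Agent.GAL.Mult Fermat.Agent.S36.Mod
  Fermat.Agent.S18.Vert Fermat.Agent.S18.Descent
open scoped MatrixGroups

variable (N : ℕ) [NeZero N] {K : Type*} [Field K] [Algebra K Kbar] (A : ValuationSubring K)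

/-- `s ∈ ℚ̄((t))` comes from `quotField A ⊆ K((t))`. -/
def IsBdd (s : LaurentSeries Kbar) : Prop :=
  ∃ s₀ ∈ quotField A, coeffMap (algebraMap K Kbar) s₀ = s

namespace IsBdd

variable {A} {s s' : LaurentSeries Kbar}

theorem zero : IsBdd A 0 := ⟨0, zero_mem _, map_zero _⟩

theorem one : IsBdd A 1 := ⟨1, one_mem _, map_one _⟩

theorem add (h : IsBdd A s) (h' : IsBdd A s') : IsBdd A (s + s') := by
  obtain ⟨a, ha, rfl⟩ := h
  obtain ⟨b, hb, rfl⟩ := h'
  exact ⟨a + b, add_mem ha hb, map_add _ _ _⟩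

theorem mul (h : IsBdd A s) (h' : IsBdd A s') : IsBdd A (s * s') := by
  obtain ⟨a, ha, rfl⟩ := h
  obtain ⟨b, hb, rfl⟩ := h'
  exact ⟨a * b, mul_mem ha hb, map_mul _ _ _⟩

theorem neg (h : IsBdd A s) : IsBdd A (-s) := by
  obtain ⟨a, ha, rfl⟩ := h
  exact ⟨-a, neg_mem ha, map_neg _ _⟩

theorem inv (h : IsBdd A s) : IsBdd A s⁻¹ := by
  obtain ⟨a, ha, rfl⟩ := h
  exact ⟨a⁻¹, inv_mem ha, map_inv₀ _ _⟩

end IsBdd

/-- The defining property of `L0`. -/
def IsGood (y : LL N) : Prop :=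
  (∀ γ ∈ Gamma N, γ • y = y) ∧ ∀ γ : SL(2, ℤ), IsBdd A (texpLL N (γ • y))

/-- The field `L0`. -/
def L0 : Subfield (LL N) where
  carrier := {y | IsGood N A y}
  mul_mem' := by
    rintro a b ⟨ha, ha'⟩ ⟨hb, hb'⟩
    refine ⟨fun γ hγ => by rw [smul_mul', ha γ hγ, hb γ hγ], fun γ => ?_⟩
    rw [smul_mul', map_mul]
    exact (ha' γ).mul (hb' γ)
  one_mem' := ⟨fun γ _ => smul_one γ, fun γ => by
    rw [smul_one, map_one]
    exact IsBdd.one⟩
  add_mem' := by
    rintro a b ⟨ha, ha'⟩ ⟨hb, hb'⟩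
    refine ⟨fun γ hγ => by rw [smul_add, ha γ hγ, hb γ hγ], fun γ => ?_⟩
    rw [smul_add, map_add]
    exact (ha' γ).add (hb' γ)
  zero_mem' := ⟨fun γ _ => smul_zero γ, fun γ => by
    rw [smul_zero, map_zero]
    exact IsBdd.zero⟩
  neg_mem' := by
    rintro a ⟨ha, ha'⟩
    refine ⟨fun γ hγ => by rw [smul_neg, ha γ hγ], fun γ => ?_⟩
    rw [smul_neg, map_neg]
    exact (ha' γ).neg
  inv_mem' := by
    rintro a ⟨ha, ha'⟩
    refine ⟨fun γ hγ => by rw [smul_inv'', ha γ hγ], fun γ => ?_⟩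
    rw [smul_inv'', map_inv₀]
    exact (ha' γ).inv

variable {N A}

theorem mem_L0 {y : LL N} : y ∈ L0 N A ↔ IsGood N A y := Iff.rfl

theorem IsGood.smul {y : LL N} (h : IsGood N A y) (σ : SL(2, ℤ)) : IsGood N A (σ • y) := by
  refine ⟨fun γ hγ => ?_, fun γ => ?_⟩
  · have h1 : σ⁻¹ * γ * σ ∈ Gamma N := by
      have := (Gamma_normal N).conj_mem γ hγ σ⁻¹
      rwa [inv_inv] at this
    have h2 := h.1 _ h1
    rw [mul_smul, mul_smul] at h2
    calc γ • σ • y = σ • σ⁻¹ • γ • σ • y := (smul_inv_smul σ _).symm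
      _ = σ • y := by rw [h2]
  · rw [← mul_smul]
    exact h.2 _

instance instActionL0 : MulSemiringAction SL(2, ℤ) (L0 N A) where
  smul σ y := ⟨σ • y.1, IsGood.smul y.2 σ⟩
  one_smul y := Subtype.ext (one_smul _ y.1)
  mul_smul σ τ y := Subtype.ext (mul_smul σ τ y.1)
  smul_zero σ := Subtype.ext (smul_zero σ)
  smul_add σ y z := Subtype.ext (smul_add σ y.1 z.1)
  smul_one σ := Subtype.ext (smul_one σ)
  smul_mul σ y z := Subtype.ext (smul_mul' σ y.1 z.1)

@[simp] theorem coe_smul_L0 (σ : SL(2, ℤ)) (y : L0 N A) : ((σ • y : L0 N A) : LL N) = σ • y.1 := rfl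

theorem smul_of_mem_Gamma (γ : SL(2, ℤ)) (hγ : γ ∈ Gamma N) (y : L0 N A) : γ • y = y :=
  Subtype.ext (y.2.1 γ hγ)

theorem cm_injective : Function.Injective (coeffMap (algebraMap K Kbar)) :=
  coeffMap_injective _ (algebraMap K Kbar).injective

theorem isBdd_texpLL (y : L0 N A) : IsBdd A (texpLL N y.1) := by
  have := y.2.2 1
  rwa [one_smul] at this

/-- The `t`-expansion of an element of `L0`, as a series with coefficients in `K`. -/
def texp0 (y : L0 N A) : LaurentSeries K := (isBdd_texpLL y).choose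

theorem texp0_mem (y : L0 N A) : texp0 y ∈ quotField A := (isBdd_texpLL y).choose_spec.1

theorem cm_texp0 (y : L0 N A) : coeffMap (algebraMap K Kbar) (texp0 y) = texpLL N y.1 :=
  (isBdd_texpLL y).choose_spec.2

variable (N A)

/-- The integral embedding `L0 → K((t))`. -/
def phi0 : IntEmb A (L0 N A) where
  toHom :=
    { toFun := texp0
      map_one' := cm_injective (by rw [cm_texp0, map_one]; exact map_one _)
      map_mul' := fun y z => cm_injective (by
        rw [cm_texp0, map_mul, cm_texp0, cm_texp0]; exact map_mul _ _ _)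
      map_zero' := cm_injective (by rw [cm_texp0, map_zero]; exact map_zero _)
      map_add' := fun y z => cm_injective (by
        rw [cm_texp0, map_add, cm_texp0, cm_texp0]; exact map_add _ _ _) }
  mem := texp0_mem

variable {N A}

theorem cm_phi0 (y : L0 N A) :
    coeffMap (algebraMap K Kbar) ((phi0 N A).toHom y) = texpLL N y.1 := cm_texp0 y

theorem phi0_eq_iff (y : L0 N A) (s : LaurentSeries K) :
    (phi0 N A).toHom y = s ↔ texpLL N y.1 = coeffMap (algebraMap K Kbar) s := by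
  rw [← cm_phi0]
  exact ⟨fun h => by rw [h], fun h => cm_injective h⟩

theorem coeffMap_twist (ζ : Kˣ) (s : LaurentSeries K) :
    coeffMap (algebraMap K Kbar) (twist ζ s) =
      twist (Units.map (algebraMap K Kbar : K →* Kbar) ζ) (coeffMap (algebraMap K Kbar) s) := by
  ext n
  show algebraMap K Kbar (((ζ ^ n : Kˣ) : K) * s.coeff n) =
    (((Units.map (algebraMap K Kbar : K →* Kbar) ζ) ^ n : Kbarˣ) : Kbar) *
      algebraMap K Kbar (s.coeff n)
  rw [map_mul, ← map_zpow]
  rfl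

/-- `T` acts on the expansions by a twist. -/
theorem phi0_T_smul (ζ : Kˣ) (hζ : Units.map (algebraMap K Kbar : K →* Kbar) ζ = (zetaK N)⁻¹)
    (y : L0 N A) : (phi0 N A).toHom (ModularGroup.T • y) = twist ζ ((phi0 N A).toHom y) := by
  rw [phi0_eq_iff, coeffMap_twist, hζ, cm_phi0]
  exact texpLL_T_smul y.1

variable [IsDiscreteValuationRing A]

variable (N A) in
/-- The Gauss valuation ring of `L0`. -/
def V0 : ValuationSubring (L0 N A) := (phi0 N A).val

/-- The Gauss valuation ring of `L0` is stable under `T`. -/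
theorem T_smul_mem_V0_iff (ζ : Kˣ)
    (hζ : Units.map (algebraMap K Kbar : K →* Kbar) ζ = (zetaK N)⁻¹)
    (hζA : (ζ : K) ∈ A) (hζA' : ((ζ⁻¹ : Kˣ) : K) ∈ A) (y : L0 N A) :
    ModularGroup.T • y ∈ V0 N A ↔ y ∈ V0 N A := by
  have h1 : ((phi0 N A).tw ζ hζA hζA').val = (phi0 N A).val := IntEmb.val_tw _ ζ hζA hζA'
  have h2 : y ∈ ((phi0 N A).tw ζ hζA hζA').val ↔ ModularGroup.T • y ∈ (phi0 N A).val := by
    rw [IntEmb.mem_val_iff, IntEmb.mem_val_iff, phi0_T_smul ζ hζ]
    rfl
  rw [V0, ← h2, h1]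

end Fermat.Agent.S48.BB.V

end
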