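/-
S48, block BB, sub-block V (vertical input).  Architect and owner of this file: helper76.

The landed vertical facts for the function field `F_K` of `X₀(N)` over `K`, packaged over `K(j)`:
finiteness, integrality of the Gauss ring over its intersection with `K(j)`, nondegeneracy of the
trace form modulo a uniformiser.
-/
import Fermat.Agent.GAL.KLInputs.Field
import Fermat.Agent.S28.Export.Card
import Fermat.Agent.S18.Vert.AnyBase
import Fermat.Agent.S18.Vert.Trace

set_option autoImplicit false
set_option linter.unusedSectionVars false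
set_option linter.style.haveILetI false

noncomputable section

namespace Fermat.Agent.S48.BB.V

open ModularCurve IntermediateField Polynomial
open Fermat.Agent.S18.Vert Fermat.Agent.S28 Fermat.Agent.GAL.KLInputs

section General

variable {K : Type*} [Field K] [CharZero K] {A : ValuationSubring K} [IsDiscreteValuationRing A]
variable {N ℓ : ℕ} [Fact ℓ.Prime] {D : UData N ℓ} {hℓ : A.LiesOverPrime ℓ}
variable {F : IntermediateField K (LaurentSeries K)}
variable (hj : jqModC K ∈ F) (hF : F ≤ bigField A D hℓ) (hq : IsQuot A F)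

set_option synthInstance.maxHeartbeats 400000 in
include hF in
theorem exists_trace_notMem_of_mem {π : A} (hπ : Irreducible π)
    (E : IntermediateField K F) (hjE : (⟨jqModC K, hj⟩ : F) ∈ E) :
    ∃ y₁ ∈ gaussVal A F hq, ¬ ∃ w ∈ gaussVal A F hq,
      algebraMap E F (Algebra.trace E F y₁) = algebraMap K F (π : K) * w := by
  let ψ₀ : A[X] →+* E :=
    Polynomial.eval₂RingHom ((algebraMap K E).comp A.subtype) ⟨⟨jqModC K, hj⟩, hjE⟩
  have hψ₀ : ∀ q, algebraMap E F (ψ₀ q) = evA A (⟨jqModC K, hj⟩ : F) q := by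
    intro q
    have h : (algebraMap E F).comp ψ₀ = evA A (⟨jqModC K, hj⟩ : F) := by
      refine Polynomial.ringHom_ext (fun a => ?_) ?_
      · simp only [ψ₀, RingHom.comp_apply, coe_eval₂RingHom, eval₂_C, evA]
        rfl
      · simp only [ψ₀, RingHom.comp_apply, coe_eval₂RingHom, eval₂_X, evA]
        rfl
    exact congrArg (fun g : A[X] →+* F => g q) h
  exact exists_trace_notMem hj hF hq ψ₀ hψ₀ hπ

end General

variable (N p : ℕ) [NeZero N] [Fact p.Prime] (hp : ¬ p ∣ N)
  {K : Type*} [Field K] [CharZero K] [Algebra ℚ K] (A : ValuationSubring K)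
  [IsDiscreteValuationRing A] (hA : A.LiesOverPrime p)

local notation "FK" => laurentBaseChange K (modularFunctionFieldFull N)

variable (K) in
/-- `j` as an element of `F_K`. -/
abbrev jK : FK := ⟨jqModC K, GAL.KLInputs.jqModC_mem K N⟩

local notation "j₀" => jK N K

include hp hA

theorem isQuot_full : IsQuot A FK := by
  obtain ⟨D, -⟩ := Export.exists_UData_card N p hp
  exact isQuot (GAL.KLInputs.jqModC_mem K N) (le_bigField A D hA)

theorem isIntegralElem_full (hq : IsQuot A FK) (f : FK) (hf : f ∈ gaussVal A FK hq) :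
    ((algebraMap K⟮j₀⟯ FK).comp
      ((gaussVal A FK hq).comap (algebraMap K⟮j₀⟯ FK)).subtype).IsIntegralElem f := by
  obtain ⟨D, -⟩ := Export.exists_UData_card N p hp
  exact isIntegralElem_comap (GAL.KLInputs.jqModC_mem K N) (le_bigField A D hA) hq K⟮j₀⟯
    (mem_adjoin_simple_self K _) ⟨f, hf⟩

theorem exists_trace_notMem_full (hq : IsQuot A FK) {π : A} (hπ : Irreducible π) :
    ∃ y₁ ∈ gaussVal A FK hq, ¬ ∃ w ∈ gaussVal A FK hq,
      algebraMap K⟮j₀⟯ FK (Algebra.trace K⟮j₀⟯ FK y₁) = algebraMap K FK (π : K) * w := by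
  obtain ⟨D, -⟩ := Export.exists_UData_card N p hp
  exact exists_trace_notMem_of_mem (GAL.KLInputs.jqModC_mem K N) (le_bigField A D hA) hq hπ K⟮j₀⟯
    (mem_adjoin_simple_self K _)

theorem finiteDimensional_full : FiniteDimensional K⟮j₀⟯ FK := by
  obtain ⟨π, hπ⟩ := IsDiscreteValuationRing.exists_irreducible A
  obtain ⟨y₁, -, hy₁⟩ := exists_trace_notMem_full N p hp A hA (isQuot_full N p hp A hA) hπ
  by_contra hcon
  apply hy₁
  refine ⟨0, zero_mem _, ?_⟩
  rw [Algebra.trace_eq_zero_of_not_exists_basis K⟮j₀⟯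
    (fun ⟨s, ⟨b⟩⟩ => hcon (Module.Finite.of_basis b))]
  simp

end Fermat.Agent.S48.BB.V

end
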