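/-
S48, block BB, sub-block V (vertical input).  Architect and owner of this file: helper76.

ASSEMBLY.  From embeddings `e₁ : F → L0`, `e₀ : F_K → L0` (with the expected `t`-expansions, fixed
fields and Gauss rings) and the separation of the residues, the Gauss data of
`F = laurentBaseChange K (F1Q M r)`.
-/
import Fermat.Agent.S48.BB.V.Abs.Main
import Fermat.Agent.S48.BB.V.L0
import Fermat.Agent.S48.BB.V.Level0
import Fermat.Agent.S48.BB.V.GaussData
import Fermat.Agent.S48.BB.V.SL2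
import Fermat.Agent.S48.BB.V.LvlFull
import Fermat.Agent.S48.BB.U.Basic

set_option autoImplicit false
set_option linter.unusedSectionVars false
set_option linter.style.haveILetI false

noncomputable section

namespace Fermat.Agent.S48.BB.V

open ModularCurve CongruenceSubgroup IntermediateField Polynomial
open Fermat.Agent.S24 Fermat.Agent.S24.B Fermat.Agent.GAL.Mult Fermat.Agent.S36.Mod
  Fermat.Agent.S18.Vert
open scoped MatrixGroups

section Unif

variable {K : Type*} [Field K] {A : ValuationSubring K} [IsDiscreteValuationRing A]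
  {F : Type*} [Field F] (φ : IntEmb A F)

theorem inv_notMem_val {π : A} (hπ : Irreducible π) {τ : F}
    (h : φ.toHom τ = algebraMap K (LaurentSeries K) (π : K)) : τ⁻¹ ∉ φ.val := by
  intro hmem
  apply inv_unif_notMem (isQuot_quotField A) hπ
  have h1 : φ.cod τ = algebraMap K (quotField A) (π : K) := Subtype.ext h
  have h2 : φ.cod τ⁻¹ ∈ bigVal A := hmem
  rwa [map_inv₀, h1] at h2

theorem exists_eq_mul_val {π : A} (hπ : Irreducible π) {τ : F}
    (h : φ.toHom τ = algebraMap K (LaurentSeries K) (π : K)) (y : F) (hy : y ∈ φ.val)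
    (hy' : y⁻¹ ∉ φ.val) : ∃ z ∈ φ.val, y = τ * z := by
  have h1 : φ.cod τ = algebraMap K (quotField A) (π : K) := Subtype.ext h
  have hπ0 : algebraMap K (quotField A) (π : K) ≠ 0 :=
    (_root_.map_ne_zero _).mpr fun h0 => hπ.ne_zero (Subtype.ext h0)
  have hτ0 : τ ≠ 0 := by
    rintro rfl
    rw [map_zero] at h1
    exact hπ0 h1.symm
  obtain ⟨z, hz, hyz⟩ := exists_eq_unif_mul (isQuot_quotField A) hπ (φ.cod y) hy (by
    rw [← map_inv₀]
    exact hy')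
  refine ⟨τ⁻¹ * y, ?_, by rw [mul_inv_cancel_left₀ hτ0]⟩
  show φ.cod (τ⁻¹ * y) ∈ bigVal A
  rw [map_mul, map_inv₀, h1, hyz, inv_mul_cancel_left₀ hπ0]
  exact hz

end Unif

section FixE

variable {N : ℕ} [NeZero N] {K : Type*} [Field K] [Algebra ℚ K] [Algebra K Kbar]
  {A : ValuationSubring K}

local notation "FK" => laurentBaseChange K (modularFunctionFieldFull N)

theorem texpLL_of_phi0 {F : IntermediateField K (LaurentSeries K)} (e : F →+* L0 N A)
    (he : ∀ f, (phi0 N A).toHom (e f) = qExpand K N f.1) (f : F) :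
    texpLL N (e f).1 = qExpand Kbar N (coeffMap (algebraMap K Kbar) f.1) := by
  rw [← coeffMap_qExpand]
  exact (phi0_eq_iff _ _).1 (he f)

/-- `SL₂(ℤ)` fixes the image of `K(j)`. -/
theorem smul_of_mem_adjoin_j (e₀ : FK →+* L0 N A)
    (he₀ : ∀ f, (phi0 N A).toHom (e₀ f) = qExpand K N f.1) (σ : SL(2, ℤ)) (x : FK)
    (hx : x ∈ K⟮jK N K⟯) : σ • e₀ x = e₀ x := by
  induction hx using IntermediateField.adjoin_induction with
  | mem y hy =>
    obtain rfl : y = jK N K := hy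
    have h1 : (e₀ (jK N K)).1 = U.Psi (isLvl_full N) (U.jB (isLvl_full N)) := by
      apply texpLL_injective
      rw [texpLL_of_phi0 e₀ he₀, U.texpLL_Psi, U.coe_jB, GAL.KLInputs.coeffEmb_jq, coeffMap_jqModC]
    apply Subtype.ext
    rw [coe_smul_L0, h1, U.smul_Psi_jB]
  | algebraMap c =>
    have h1 : (e₀ (algebraMap K FK c)).1 = algebraMap Kbar (LL N) (algebraMap K Kbar c) := by
      apply texpLL_injective
      rw [texpLL_of_phi0 e₀ he₀, AlgHom.commutes]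
      show qExpand Kbar N (coeffMap (algebraMap K Kbar) (algebraMap K (LaurentSeries K) c)) = _
      rw [algebraMap_laurentSeries_eq_single, coeffMap_single, qExpand_single, mul_zero,
        ← algebraMap_laurentSeries_eq_single]
    apply Subtype.ext
    rw [coe_smul_L0, h1, smul_algebraMap_Kbar_LL]
  | add y z _ _ hy hz => rw [map_add, smul_add, hy, hz]
  | inv y _ hy => rw [map_inv₀, smul_inv'', hy]
  | mul y z _ _ hy hz => rw [map_mul, smul_mul', hy, hz]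

end FixE

set_option synthInstance.maxHeartbeats 400000 in
set_option maxHeartbeats 1000000 in
/-- **The abstract main theorem, in terms of Gauss rings.** -/
theorem core {K : Type*} [Field K] [CharZero K] {A : ValuationSubring K}
    [IsDiscreteValuationRing A]
    {F₀ F : IntermediateField K (LaurentSeries K)} (hle : F₀ ≤ F)
    (hj₀ : jqModC K ∈ F₀) (hj : jqModC K ∈ F) (hq₀ : IsQuot A F₀) (hq : IsQuot A F)
    [FiniteDimensional K⟮(⟨jqModC K, hj₀⟩ : F₀)⟯ F₀]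
    (hint₀ : ∀ f ∈ gaussVal A F₀ hq₀, ((algebraMap K⟮(⟨jqModC K, hj₀⟩ : F₀)⟯ F₀).comp
      ((gaussVal A F₀ hq₀).comap (algebraMap K⟮(⟨jqModC K, hj₀⟩ : F₀)⟯ F₀)).subtype).IsIntegralElem f)
    (htr₀ : ∀ π : A, Irreducible π → ∃ y₁ ∈ gaussVal A F₀ hq₀, ¬ ∃ w ∈ gaussVal A F₀ hq₀,
      algebraMap K⟮(⟨jqModC K, hj₀⟩ : F₀)⟯ F₀ (Algebra.trace K⟮(⟨jqModC K, hj₀⟩ : F₀)⟯ F₀ y₁) =
        algebraMap K F₀ (π : K) * w)
    {L Γ : Type*} [Field L] [Group Γ] [MulSemiringAction Γ L]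
    (φ : IntEmb A L) (e₁ : F →+* L) (e₀ : F₀ →+* L)
    (hcompat : ∀ x, e₁ (inclusion hle x) = e₀ x)
    (hconst : ∀ c : K, φ.toHom (e₀ (algebraMap K F₀ c)) = algebraMap K (LaurentSeries K) c)
    (hV₁ : φ.val.comap e₁ = gaussVal A F hq) (hV₀ : φ.val.comap e₀ = gaussVal A F₀ hq₀)
    (T : Γ) (B H N' : Subgroup Γ) [N'.FiniteIndex]
    (hN : ∀ n ∈ N', ∀ y : L, n • y = y)
    (hnorm : ∀ b ∈ B, ∀ h ∈ H, b⁻¹ * h * b ∈ H)
    (hT : ∀ y : L, T • y ∈ φ.val ↔ y ∈ φ.val)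
    (hBT : ∀ b ∈ B, ∃ k : ℤ, ∃ n ∈ N', b * T * b⁻¹ = T ^ k * n)
    (hgen : Subgroup.normalClosure {T} = ⊤)
    (hfixE : ∀ (σ : Γ), ∀ x ∈ K⟮(⟨jqModC K, hj₀⟩ : F₀)⟯, σ • e₀ x = e₀ x)
    (hfixB : ∀ b ∈ B, ∀ a : F₀, b • e₀ a = e₀ a)
    (hinvB : ∀ y : L, (∀ b ∈ B, b • y = y) → ∃ a : F₀, e₀ a = y)
    (hfixH : ∀ h ∈ H, ∀ f : F, h • e₁ f = e₁ f)
    (hinvH : ∀ y : L, (∀ h ∈ H, h • y = y) → ∃ f : F, e₁ f = y)
    (hsep : ∀ b ∈ B, b ∉ H → ∃ f : F, ∃ (h1 : e₁ f ∈ φ.val) (h2 : b • e₁ f ∈ φ.val),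
      φ.res ⟨_, h2⟩ ≠ φ.res ⟨_, h1⟩) :
    KL.HasGaussData A F hj hq := by
  obtain ⟨π, hπ⟩ := IsDiscreteValuationRing.exists_irreducible A
  obtain ⟨E₁, hE₁⟩ : ∃ E : IntermediateField K F₀, E = K⟮(⟨jqModC K, hj₀⟩ : F₀)⟯ := ⟨_, rfl⟩
  rw [← hE₁] at hint₀ htr₀ hfixE
  haveI : FiniteDimensional E₁ F₀ := by rw [hE₁]; infer_instance
  letI : Algebra F₀ F := (inclusion hle).toRingHom.toAlgebra
  letI : Algebra E₁ F := ((algebraMap F₀ F).comp (algebraMap E₁ F₀)).toAlgebra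
  haveI := IsScalarTower.of_algebraMap_eq (R := E₁) (S := F₀) (A := F) fun _ => rfl
  letI : Algebra F L := e₁.toAlgebra
  letI : Algebra F₀ L := e₀.toAlgebra
  haveI := IsScalarTower.of_algebraMap_eq (R := F₀) (S := F) (A := L) fun x => (hcompat x).symm
  letI : Algebra E₁ L := (e₀.comp (algebraMap E₁ F₀)).toAlgebra
  haveI := IsScalarTower.of_algebraMap_eq (R := E₁) (S := F₀) (A := L) fun _ => rfl
  haveI := IsScalarTower.of_algebraMap_eq (R := E₁) (S := F) (A := L) fun x => (hcompat _).symm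
  obtain ⟨y₁, hy₁, hy₁'⟩ := htr₀ π hπ
  have hτ : φ.toHom (algebraMap E₁ L (algebraMap K E₁ (π : K))) =
      algebraMap K (LaurentSeries K) (π : K) := hconst π
  have hV₀' : φ.val.comap (algebraMap F₀ L) = gaussVal A F₀ hq₀ := hV₀
  have hV₁' : φ.val.comap (algebraMap F L) = gaussVal A F hq := hV₁
  obtain ⟨-, hfin, hint, y₀, hy₀, htr⟩ := abstract_main (E₁ := E₁) (F₀ := F₀) (F := F) (L := L)
    φ.val T B H N' hN hnorm hT hBT hgen (fun σ e => hfixE σ e e.2) hfixB hinvB hfixH hinvH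
    (algebraMap K E₁ (π : K)) (inv_notMem_val φ hπ hτ) (exists_eq_mul_val φ hπ hτ)
    (by rw [hV₀']; exact hint₀) y₁ (by rw [← hV₀'] at hy₁; exact hy₁)
    (by rw [hV₀']; exact hy₁') φ.res (fun y hy => (φ.inv_mem_val_iff y).2 (Or.inr hy)) hsep
  haveI := hfin
  rw [hV₁'] at hint hy₀
  refine hasGaussData_of hj hq (E₁ := E₁) ?_ ?_ hint y₀ hy₀ htr
  · intro e
    have h1 : (K⟮(⟨jqModC K, hj₀⟩ : F₀)⟯).map (inclusion hle) = K⟮(⟨jqModC K, hj⟩ : F)⟯ := by
      rw [IntermediateField.adjoin_map, Set.image_singleton]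
      rfl
    rw [← h1, ← hE₁]
    exact ⟨e.1, e.2, rfl⟩
  · intro a
    exact ⟨algebraMap K E₁ (a : K), rfl⟩

end Fermat.Agent.S48.BB.V

end
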