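/-
S48 block BB, sub-block V (architect helper76), leaf BB-V-B2 (helper123): fields generated by
integral series are fields of quotients of integral series.
-/
import Fermat.Agent.S36.Mod.GaussEmb.Defs
import Fermat.Agent.S18.Descent.FF1

set_option autoImplicit false

noncomputable section

namespace Fermat.Agent.S48.BB.V

open ModularCurve IntermediateField Polynomial
open Fermat.Agent.S24 Fermat.Agent.S36.Mod Fermat.Agent.S18.Vert Fermat.Agent.S18.Descent

/-- auxiliary form of `isQuot_adjoin`. -/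
private theorem exists_quot_of_mem_adjoin {K : Type*} [Field K] (A : ValuationSubring K)
    (S : Set (LaurentSeries K)) (hS : ∀ x ∈ S, ∃ P : LaurentSeries A, inc A P = x)
    {f : LaurentSeries K} (hf : f ∈ IntermediateField.adjoin K S) :
    ∃ P Q : LaurentSeries A, inc A P ∈ IntermediateField.adjoin K S ∧
      inc A Q ∈ IntermediateField.adjoin K S ∧ Q ≠ 0 ∧ f * inc A Q = inc A P := by
  have h1 : inc A 1 ∈ IntermediateField.adjoin K S := by rw [map_one]; exact one_mem _
  have h0 : inc A 0 ∈ IntermediateField.adjoin K S := by rw [map_zero]; exact zero_mem _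
  induction hf using IntermediateField.adjoin_induction with
  | mem y hy =>
    obtain ⟨P, rfl⟩ := hS y hy
    exact ⟨P, 1, IntermediateField.subset_adjoin K _ hy, h1, one_ne_zero,
      by rw [map_one, mul_one]⟩
  | algebraMap c =>
    rcases A.mem_or_inv_mem c with hc | hc
    · exact ⟨HahnSeries.C ⟨c, hc⟩, 1, inc_C_mem _, h1, one_ne_zero,
        by rw [map_one, mul_one, inc_C]⟩
    · by_cases hc0 : c = 0
      · exact ⟨0, 1, h0, h1, one_ne_zero, by rw [hc0, map_zero, map_zero, zero_mul]⟩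
      · refine ⟨1, HahnSeries.C ⟨c⁻¹, hc⟩, h1, inc_C_mem _, C_ne_zero (fun h => ?_), ?_⟩
        · exact inv_ne_zero hc0 (congrArg Subtype.val h)
        · rw [inc_C, ← map_mul, mul_inv_cancel₀ hc0, map_one, map_one]
  | add y z _ _ hy hz =>
    obtain ⟨P, Q, hP, hQm, hQ, h⟩ := hy
    obtain ⟨P', Q', hP', hQm', hQ', h'⟩ := hz
    refine ⟨P * Q' + P' * Q, Q * Q', ?_, ?_, mul_ne_zero hQ hQ', ?_⟩
    · rw [map_add, map_mul, map_mul]
      exact add_mem (mul_mem hP hQm') (mul_mem hP' hQm)
    · rw [map_mul]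
      exact mul_mem hQm hQm'
    · rw [map_add, map_mul, map_mul, map_mul, ← h, ← h']
      ring
  | inv y _ hy =>
    obtain ⟨P, Q, hP, hQm, hQ, h⟩ := hy
    by_cases hy0 : y = 0
    · exact ⟨0, 1, h0, h1, one_ne_zero, by rw [hy0, inv_zero, zero_mul, map_zero]⟩
    · refine ⟨Q, P, hQm, hP, fun hP0 => ?_, ?_⟩
      · rw [hP0, map_zero] at h
        rcases mul_eq_zero.mp h with h2 | h2
        · exact hy0 h2
        · exact hQ ((inc_eq_zero_iff A).mp h2)
      · rw [← h, inv_mul_cancel_left₀ hy0]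
  | mul y z _ _ hy hz =>
    obtain ⟨P, Q, hP, hQm, hQ, h⟩ := hy
    obtain ⟨P', Q', hP', hQm', hQ', h'⟩ := hz
    refine ⟨P * P', Q * Q', ?_, ?_, mul_ne_zero hQ hQ', ?_⟩
    · rw [map_mul]
      exact mul_mem hP hP'
    · rw [map_mul]
      exact mul_mem hQm hQm'
    · rw [map_mul, map_mul, ← h, ← h']
      ring

/-- FINAL HOME `V/Quot.lean`. -/
theorem isQuot_adjoin {K : Type*} [Field K] (A : ValuationSubring K) (S : Set (LaurentSeries K))
    (hS : ∀ x ∈ S, ∃ P : LaurentSeries A, inc A P = x) :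
    IsQuot A (IntermediateField.adjoin K S) := by
  intro f
  exact exists_quot_of_mem_adjoin A S hS f.2

/-- FINAL HOME `V/Quot.lean`. -/
theorem isQuot_laurentBaseChange {K : Type*} [Field K] [Algebra ℚ K] (A : ValuationSubring K)
    (F₀ : IntermediateField ℚ (LaurentSeries ℚ)) (S : Set (LaurentSeries ℚ))
    (hF : F₀ = IntermediateField.adjoin ℚ S)
    (hS : ∀ x ∈ S, ∀ k : ℤ, algebraMap ℚ K (x.coeff k) ∈ A) :
    IsQuot A (laurentBaseChange K F₀) := by
  rw [laurentBaseChange_eq_adjoin hF]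
  apply isQuot_adjoin
  rintro _ ⟨x, hx, rfl⟩
  exact ⟨liftS A (coeffEmb K x) (fun k => hS x hx k), inc_liftS A _ _⟩

/-- FINAL HOME `V/Quot.lean`.  A field with `IsQuot` lies in `quotField A`. -/
theorem le_quotField_of_isQuot {K : Type*} [Field K] {A : ValuationSubring K}
    {F : IntermediateField K (LaurentSeries K)} (hq : IsQuot A F) : F ≤ quotField A := by
  intro f hf
  obtain ⟨P, Q, -, -, hQ, h⟩ := hq ⟨f, hf⟩
  have hQ0 : inc A Q ≠ 0 := fun h0 => hQ ((inc_eq_zero_iff A).mp h0)
  have h1 : f = inc A P * (inc A Q)⁻¹ := by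
    rw [← h]
    exact (mul_inv_cancel_right₀ hQ0 f).symm
  rw [h1]
  exact mul_mem (inc_mem_quotField A P) (inv_mem (inc_mem_quotField A Q))

end Fermat.Agent.S48.BB.V

end
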