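/-
S48 BB-V, leaf B7 (architect helper76, proofs helper289): group theory of
`H1 M r = ±Γ₁(M) ∩ Γ₀(M r)`.
-/
import Fermat.Agent.S48.BB.Base

set_option autoImplicit false

noncomputable section

namespace Fermat.Agent.S48.BB.V

open ModularCurve CongruenceSubgroup
open scoped MatrixGroups

/-- reduction of a congruence modulo `M * r` to a congruence modulo `M` -/
private theorem H1_cast_eq_zero {M r : ℕ} {z : ℤ} (h : (z : ZMod (M * r)) = 0) :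
    (z : ZMod M) = 0 := by
  rw [CharP.intCast_eq_zero_iff (ZMod (M * r)) (M * r)] at h
  rw [CharP.intCast_eq_zero_iff (ZMod M) M]
  exact dvd_trans ⟨(r : ℤ), by push_cast; ring⟩ h

private theorem H1_det (M : ℕ) (b : SL(2, ℤ)) :
    ((b 0 0 : ℤ) : ZMod M) * ((b 1 1 : ℤ) : ZMod M) -
      ((b 0 1 : ℤ) : ZMod M) * ((b 1 0 : ℤ) : ZMod M) = 1 := by
  have h := b.2
  rw [Matrix.det_fin_two] at h
  have h2 := congrArg (Int.cast : ℤ → ZMod M) h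
  push_cast at h2
  exact h2

private theorem H1_normal : (Subgroup.zpowers (-1 : SL(2, ℤ))).Normal := by
  refine ⟨fun n hn g => ?_⟩
  obtain ⟨k, rfl⟩ := hn
  have hc : Commute g ((-1 : SL(2, ℤ)) ^ k) := (Commute.neg_one_right g).zpow_right k
  have : g * (-1 : SL(2, ℤ)) ^ k * g⁻¹ = (-1 : SL(2, ℤ)) ^ k := by
    rw [hc.eq, mul_assoc, mul_inv_cancel, mul_one]
  rw [this]
  exact ⟨k, rfl⟩

/-- the upper left entry of an element of `±Γ₁(M)` -/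
private theorem H1_entry_of_mem {M : ℕ} {b : SL(2, ℤ)} (hb : b ∈ pmGamma1 M) :
    ((b 0 0 : ℤ) : ZMod M) = 1 ∨ ((b 0 0 : ℤ) : ZMod M) = -1 := by
  have := H1_normal
  rw [pmGamma1, Subgroup.mem_sup_of_normal_right] at hb
  obtain ⟨g, hg, z, ⟨k, rfl⟩, rfl⟩ := hb
  rw [Gamma1_mem] at hg
  rcases Int.even_or_odd k with hk | hk
  · left
    have h1 : (-1 : SL(2, ℤ)) ^ k = 1 := hk.neg_one_zpow
    show (((g * (-1 : SL(2, ℤ)) ^ k) 0 0 : ℤ) : ZMod M) = 1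
    rw [h1, mul_one]
    exact hg.1
  · right
    have h1 : (-1 : SL(2, ℤ)) ^ k = -1 := hk.neg_one_zpow
    show (((g * (-1 : SL(2, ℤ)) ^ k) 0 0 : ℤ) : ZMod M) = -1
    rw [h1, mul_neg_one, Matrix.SpecialLinearGroup.coe_neg, Matrix.neg_apply, Int.cast_neg, hg.1]

private theorem H1_mem_pmGamma1 {M : ℕ} {b : SL(2, ℤ)} (hb : ((b 1 0 : ℤ) : ZMod M) = 0)
    (h : ((b 0 0 : ℤ) : ZMod M) = 1 ∨ ((b 0 0 : ℤ) : ZMod M) = -1) : b ∈ pmGamma1 M := by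
  have hdet := H1_det M b
  rw [hb, mul_zero, sub_zero] at hdet
  rcases h with h | h
  · refine (le_sup_left : Gamma1 M ≤ pmGamma1 M) ?_
    rw [Gamma1_mem]
    refine ⟨h, ?_, hb⟩
    rwa [h, one_mul] at hdet
  · have h1 : -b ∈ Gamma1 M := by
      rw [Gamma1_mem, Matrix.SpecialLinearGroup.coe_neg]
      simp only [Matrix.neg_apply, Int.cast_neg]
      refine ⟨by rw [h, neg_neg], ?_, by rw [hb, neg_zero]⟩
      rw [h] at hdet
      linear_combination hdet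
    have h2 : b = -b * (-1 : SL(2, ℤ)) := by rw [mul_neg_one, neg_neg]
    rw [h2]
    exact Subgroup.mul_mem _ ((le_sup_left : Gamma1 M ≤ pmGamma1 M) h1)
      ((le_sup_right : Subgroup.zpowers (-1 : SL(2, ℤ)) ≤ pmGamma1 M)
        (Subgroup.mem_zpowers _))

theorem mem_H1_of_entry (M r : ℕ) (b : SL(2, ℤ)) (hb : b ∈ Gamma0 (M * r))
    (h : ((b 0 0 : ℤ) : ZMod M) = 1 ∨ ((b 0 0 : ℤ) : ZMod M) = -1) : b ∈ H1 M r :=
  ⟨H1_mem_pmGamma1 (H1_cast_eq_zero (Gamma0_mem.mp hb)) h, hb⟩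

theorem Gamma_le_H1 (M r : ℕ) : Gamma (M * r) ≤ H1 M r := by
  intro γ hγ
  rw [Gamma_mem] at hγ
  refine mem_H1_of_entry M r γ (Gamma0_mem.mpr hγ.2.2.1) (Or.inl ?_)
  have h1 : (((γ 0 0 - 1 : ℤ)) : ZMod (M * r)) = 0 := by
    push_cast
    rw [hγ.1, sub_self]
  have h2 := H1_cast_eq_zero h1
  push_cast at h2
  exact sub_eq_zero.mp h2

theorem H1_le_Gamma0 (M r : ℕ) : H1 M r ≤ Gamma0 (M * r) := inf_le_right

theorem conj_mem_H1 (M r : ℕ) (b h : SL(2, ℤ)) (hb : b ∈ Gamma0 (M * r)) (hh : h ∈ H1 M r) :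
    b * h * b⁻¹ ∈ H1 M r := by
  have hmem : b * h * b⁻¹ ∈ Gamma0 (M * r) :=
    Subgroup.mul_mem _ (Subgroup.mul_mem _ hb hh.2) (Subgroup.inv_mem _ hb)
  refine mem_H1_of_entry M r _ hmem ?_
  have hs : ((b 1 0 : ℤ) : ZMod M) = 0 := H1_cast_eq_zero (Gamma0_mem.mp hb)
  have hc : ((h 1 0 : ℤ) : ZMod M) = 0 := H1_cast_eq_zero (Gamma0_mem.mp hh.2)
  have hdet := H1_det M b
  rw [hs, mul_zero, sub_zero] at hdet
  have e : (b * h * b⁻¹) 0 0 =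
      (b 0 0 * h 0 0 + b 0 1 * h 1 0) * b 1 1 - (b 0 0 * h 0 1 + b 0 1 * h 1 1) * b 1 0 := by
    rw [Matrix.SpecialLinearGroup.coe_mul, Matrix.SpecialLinearGroup.coe_mul,
      Matrix.SpecialLinearGroup.SL2_inv_expl]
    simp [Matrix.mul_apply, Fin.sum_univ_two]
    ring
  have e2 : (((b * h * b⁻¹) 0 0 : ℤ) : ZMod M) = ((h 0 0 : ℤ) : ZMod M) := by
    rw [e]
    push_cast
    rw [hs, hc]
    linear_combination ((h 0 0 : ℤ) : ZMod M) * hdet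
  rw [e2]
  exact H1_entry_of_mem hh.1

end Fermat.Agent.S48.BB.V

end
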