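/-
S48 BB-V, leaf B8 (helper138; architect helper76): integrality and first coefficients of `uQ M a`;
integrality of `j(q^d)`.
-/
import Fermat.Agent.S48.BB.Base
import Fermat.Prelude.Def_ModularCurve_JqCoeff

set_option autoImplicit false

noncomputable section

namespace Fermat.Agent.S48.BB.V

open ModularCurve

private theorem uq_shift_coeff (f : PowerSeries ℚ) (k : ℤ) :
    (HahnSeries.single (-1 : ℤ) (1 : ℚ) * HahnSeries.ofPowerSeries ℤ ℚ f).coeff k =
      (HahnSeries.ofPowerSeries ℤ ℚ f).coeff (k + 1) := by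
  have h := HahnSeries.coeff_single_mul_add (r := (1 : ℚ)) (x := HahnSeries.ofPowerSeries ℤ ℚ f)
    (a := k + 1) (b := (-1 : ℤ))
  rw [one_mul, add_neg_cancel_right] at h
  exact h

/-- the integral power series behind `uQ M a` -/
private def uqW (M : ℕ) (a : ZMod M) : PowerSeries ℤ :=
  (PowerSeries.mk (IS.cB M a)) ^ 4 * dedekindEtaUnitInv

private theorem uq_map_W (M : ℕ) (a : ZMod M) :
    tP M a ^ 4 * etaInvQ = (uqW M a).map (Int.castRingHom ℚ) := by
  have h : tP M a = (PowerSeries.mk (IS.cB M a)).map (Int.castRingHom ℚ) := by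
    ext n
    rw [tP, PowerSeries.coeff_mk, PowerSeries.coeff_map, PowerSeries.coeff_mk]
    rfl
  rw [uqW, map_mul, map_pow, h, etaInvQ]

private theorem uq_coeff_nat (M : ℕ) (a : ZMod M) (n : ℕ) :
    (uQ M a).coeff ((n : ℤ) - 1) = ((PowerSeries.coeff n (uqW M a) : ℤ) : ℚ) := by
  rw [uQ, uq_shift_coeff, sub_add_cancel, HahnSeries.ofPowerSeries_apply_coeff, uq_map_W,
    PowerSeries.coeff_map]
  rfl

theorem uQ_coeff_int (M : ℕ) (a : ZMod M) (k : ℤ) : ∃ z : ℤ, (uQ M a).coeff k = (z : ℚ) := by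
  by_cases hk : 0 ≤ k + 1
  · obtain ⟨n, hn⟩ := Int.eq_ofNat_of_zero_le hk
    have hk' : k = (n : ℤ) - 1 := by omega
    rw [hk']
    exact ⟨_, uq_coeff_nat M a n⟩
  · refine ⟨0, ?_⟩
    rw [uQ, uq_shift_coeff, ofPowerSeries_coeff_of_neg _ (by omega), Int.cast_zero]

private theorem uq_cB_zero (M : ℕ) (a : ZMod M) : IS.cB M a 0 = 0 := by
  rw [IS.cB, Nat.divisors_zero, Finset.sum_empty]

private theorem uq_cB_one (M : ℕ) (a : ZMod M) :
    IS.cB M a 1 = (if (1 : ZMod M) = a then 1 else 0) - (if (1 : ZMod M) = -a then 1 else 0) := by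
  rw [IS.cB, Nat.divisors_one, Finset.sum_singleton]
  simp

private theorem uq_coeff_four (M : ℕ) (a : ZMod M) :
    PowerSeries.coeff 4 (uqW M a) = IS.cB M a 1 ^ 4 := by
  have h : PowerSeries.mk (IS.cB M a) =
      PowerSeries.X * PowerSeries.mk (fun n => IS.cB M a (n + 1)) := by
    ext n
    cases n with
    | zero =>
      rw [PowerSeries.coeff_mk, uq_cB_zero, PowerSeries.coeff_zero_X_mul]
    | succ n =>
      rw [PowerSeries.coeff_mk, PowerSeries.coeff_succ_X_mul, PowerSeries.coeff_mk]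
  have h2 : uqW M a = PowerSeries.X ^ 4 *
      ((PowerSeries.mk (fun n => IS.cB M a (n + 1))) ^ 4 * dedekindEtaUnitInv) := by
    rw [uqW, h, mul_pow, mul_assoc]
  have h3 := PowerSeries.coeff_X_pow_mul
    ((PowerSeries.mk (fun n => IS.cB M a (n + 1))) ^ 4 * dedekindEtaUnitInv) 4 0
  rw [zero_add] at h3
  rw [h2, h3, PowerSeries.coeff_zero_eq_constantCoeff_apply, map_mul, map_pow,
    constantCoeff_dedekindEtaUnitInv, mul_one, ← PowerSeries.coeff_zero_eq_constantCoeff_apply,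
    PowerSeries.coeff_mk]

private theorem uq_coeff_three (M : ℕ) (a : ZMod M) :
    (uQ M a).coeff 3 = ((IS.cB M a 1 ^ 4 : ℤ) : ℚ) := by
  have h := uq_coeff_nat M a 4
  rw [uq_coeff_four] at h
  exact h

theorem uQ_one_coeff_three (M : ℕ) (hM : 3 ≤ M) : (uQ M 1).coeff 3 = 1 := by
  have h1 : (1 : ZMod M) ≠ -1 := by
    intro h
    have h2 : ((2 : ℕ) : ZMod M) = 0 := by
      have : (1 : ZMod M) + 1 = 0 := by
        nth_rewrite 1 [h]
        exact neg_add_cancel 1
      rw [← this]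
      norm_num
    rw [ZMod.natCast_eq_zero_iff] at h2
    have := Nat.le_of_dvd (by norm_num) h2
    omega
  rw [uq_coeff_three, uq_cB_one, if_pos rfl, if_neg h1]
  norm_num

theorem uQ_coeff_three (M : ℕ) (a : ZMod M) (h1 : a ≠ 1) (h2 : a ≠ -1) :
    (uQ M a).coeff 3 = 0 := by
  have h3 : (1 : ZMod M) ≠ -a := by
    intro h
    apply h2
    rw [h, neg_neg]
  rw [uq_coeff_three, uq_cB_one, if_neg (Ne.symm h1), if_neg h3]
  norm_num

theorem qExpand_jq_coeff_int (d : ℕ) [NeZero d] (k : ℤ) :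
    ∃ z : ℤ, (qExpand ℚ d jq).coeff k = (z : ℚ) := by
  by_cases hk : (d : ℤ) ∣ k
  · obtain ⟨m, rfl⟩ := hk
    refine ⟨(jqModC ℤ).coeff m, ?_⟩
    rw [qExpand_coeff_mul, ← jqModC_rat, jqModC_eq_map_intCast, HahnSeries.map_coeff]
    rfl
  · exact ⟨0, by rw [qExpand_coeff_of_not_dvd d _ hk, Int.cast_zero]⟩

end Fermat.Agent.S48.BB.V

end
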