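/-
S48, block BB, sub-block V (vertical input).  Architect and owner of this file: helper76.

**The vertical statement**: good reduction of `X₁(M) ×_{X₀(M)} X₀(M r)` at `p ∤ M r`.
-/
import Fermat.Agent.S48.BB.V.Assemble
import Fermat.Agent.S48.BB.V.Emb.Conc
import Fermat.Agent.S48.BB.V.Emb.Sep

set_option autoImplicit false
set_option linter.unusedSectionVars false
set_option linter.style.haveILetI false

noncomputable section

namespace Fermat.Agent.S48.BB.V

open ModularCurve CongruenceSubgroup IntermediateField Polynomial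
open Fermat.Agent.S24 Fermat.Agent.S24.B Fermat.Agent.GAL.Mult Fermat.Agent.S36.Mod
  Fermat.Agent.S18.Vert
open scoped MatrixGroups

theorem isQuot_F1Q' {K : Type*} [Field K] [Algebra ℚ K] (A : ValuationSubring K) (M r : ℕ)
    [NeZero (M * r)] : IsQuot A (laurentBaseChange K (F1Q M r)) := by
  refine isQuot_laurentBaseChange A (F1Q M r) _ (W.F1Q_eq_adjoin M r) ?_
  rintro x (⟨a, rfl⟩ | ⟨d, hd0, hd, rfl⟩) k
  · obtain ⟨z, hz⟩ := uQ_coeff_int M a k
    rw [hz, map_intCast]
    exact intCast_mem A z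
  · obtain ⟨z, hz⟩ := qExpand_jq_coeff_int d k
    rw [hz, map_intCast]
    exact intCast_mem A z

set_option synthInstance.maxHeartbeats 400000 in
set_option maxHeartbeats 1000000 in
theorem hasGaussData_F1Q (M r p : ℕ) [NeZero M] [NeZero r] [Fact p.Prime] (hp : ¬ p ∣ M * r)
    (K : Type) [Field K] [CharZero K] [Algebra ℚ K] [Algebra K Kbar] (A : ValuationSubring K)
    [IsDiscreteValuationRing A] (hA : A.LiesOverPrime p) (hζ : ∃ ζ : K, IsPrimitiveRoot ζ (M * r))
    (hj : jqModC K ∈ laurentBaseChange K (F1Q M r))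
    (hq : IsQuot A (laurentBaseChange K (F1Q M r))) :
    KL.HasGaussData A (laurentBaseChange K (F1Q M r)) hj hq := by
  obtain ⟨hg₁, hg₀⟩ := exists_isGood A M r p Fact.out hp hA hζ
  haveI := Emb.isAlgebraic (K := K)
  obtain ⟨ζ, hζ1, hζA, hζA'⟩ := Emb.exists_zeta (M * r) A hζ
  haveI := finiteDimensional_full (M * r) p hp A hA
  have hq₀ := isQuot_full (M * r) p hp A hA
  refine core (GAL.KLInputs.laurentBaseChange_mono le_sup_right)
    (GAL.KLInputs.jqModC_mem K (M * r)) hj hq₀ hq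
    (isIntegralElem_full (M * r) p hp A hA hq₀)
    (fun π hπ => exists_trace_notMem_full (M * r) p hp A hA hq₀ hπ)
    (phi0 (M * r) A) (e0 (W.isLvl_F1Q M r) hg₁) (e0 (isLvl_full (M * r)) hg₀)
    (fun x => Subtype.ext (embLL_inclusion M r x _)) ?_
    (comap_V0 _ hg₁ hq) (comap_V0 _ hg₀ hq₀)
    ModularGroup.T (Gamma0 (M * r)) (H1 M r) (Gamma (M * r))
    (fun n hn y => smul_of_mem_Gamma n hn y) ?_
    (T_smul_mem_V0_iff ζ⁻¹ (by rw [map_inv, hζ1]) hζA' (by rw [inv_inv]; exact hζA))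
    (conj_T_of_mem_Gamma0 (M * r)) normalClosure_T
    (fun σ x hx => smul_of_mem_adjoin_j _ (phi0_e0 _ hg₀) σ x hx)
    (smul_e0_of_mem _ hg₀) (exists_e0_eq_of_fixed _ hg₀)
    (smul_e0_of_mem _ hg₁) (exists_e0_eq_of_fixed _ hg₁)
    (exists_res0_ne M r hg₁)
  · intro c
    rw [phi0_e0]
    show qExpand K (M * r) (algebraMap K (LaurentSeries K) c) = _
    rw [algebraMap_laurentSeries_eq_single, qExpand_single, mul_zero]
  · intro b hb h hh
    have := conj_mem_H1 M r b⁻¹ h (inv_mem hb) hh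
    rwa [inv_inv] at this

/-- **The vertical statement.** -/
theorem vertStatement : KL.VertStatement := by
  intro M r p _ _ hp K _ _ _ _ A _ hA hζ hj
  haveI : NeZero M := ⟨fun h => NeZero.ne (M * r) (by rw [h, zero_mul])⟩
  haveI : NeZero r := ⟨fun h => NeZero.ne (M * r) (by rw [h, mul_zero])⟩
  exact ⟨isQuot_F1Q' A M r, hasGaussData_F1Q M r p hp K A hA hζ hj _⟩

end Fermat.Agent.S48.BB.V

end
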