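/-
S48 block BB, sub-block V (architect helper76).  TASK BB-V-B1 (proof: helper187).
Descent of the field of definition: a Laurent series over `L` whose extension of coefficients to
`L'` lies in `laurentBaseChange L' F₀` lies in `laurentBaseChange L F₀`.
-/
import Fermat.Agent.S18.Descent.Indep
import Fermat.Agent.S18.Descent.Union

set_option autoImplicit false

noncomputable section

namespace Fermat.Agent.S48.BB.V

open ModularCurve IntermediateField
open Fermat.Agent.S18.Descent

section

variable {L L' : Type*} [Field L] [Field L'] [Algebra L L']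

private theorem coeffLin_smul'' (lam : L' →ₗ[L] L) (c : L') (a : LaurentSeries L') :
    coeffLin (lam.comp (LinearMap.mulLeft L c)) a =
      coeffLin lam (algebraMap L' (LaurentSeries L') c * a) := by
  ext k
  rw [algebraMap_laurentSeries_eq_single, coeffLin_coeff, coeffLin_coeff,
    HahnSeries.coeff_single_zero_mul]
  rfl

variable [Algebra ℚ L] [Algebra ℚ L']

private theorem coeffLin_coeffEmb (lam : L' →ₗ[L] L) (f : LaurentSeries ℚ) :
    coeffLin lam (coeffEmb L' f) = coeffEmb L f * algebraMap L (LaurentSeries L) (lam 1) := by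
  have h : coeffEmb L' f = coeffMap (algebraMap L L') (coeffEmb L f) *
      algebraMap L' (LaurentSeries L') 1 := by
    rw [map_one, mul_one, coeffMap_coeffEmb']
  rw [h, coeffLin_mul, coeffLin_algebraMap]

private theorem mem_image_of_mem_closure (F₀ : IntermediateField ℚ (LaurentSeries ℚ))
    (z : LaurentSeries L')
    (hz : z ∈ Submonoid.closure (⇑(coeffEmb L') '' (F₀ : Set (LaurentSeries ℚ)))) :
    ∃ f ∈ F₀, coeffEmb L' f = z := by
  induction hz using Submonoid.closure_induction with
  | mem z hz => exact hz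
  | one => exact ⟨1, one_mem _, map_one _⟩
  | mul a b _ _ ha hb =>
    obtain ⟨f, hf, rfl⟩ := ha
    obtain ⟨g, hg, rfl⟩ := hb
    exact ⟨f * g, mul_mem hf hg, map_mul _ _ _⟩

private theorem coeffLin_mem_of_mem_adjoin (F₀ : IntermediateField ℚ (LaurentSeries ℚ))
    (lam : L' →ₗ[L] L) {p : LaurentSeries L'}
    (hp : p ∈ Algebra.adjoin L' (⇑(coeffEmb L') '' (F₀ : Set (LaurentSeries ℚ)))) :
    coeffLin lam p ∈ laurentBaseChange L F₀ := by
  have hp' : p ∈ Subalgebra.toSubmodule
      (Algebra.adjoin L' (⇑(coeffEmb L') '' (F₀ : Set (LaurentSeries ℚ)))) := hp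
  rw [Algebra.adjoin_eq_span] at hp'
  clear hp
  induction hp' using Submodule.span_induction generalizing lam with
  | mem z hz =>
    obtain ⟨f, hf, rfl⟩ := mem_image_of_mem_closure F₀ z hz
    rw [coeffLin_coeffEmb]
    exact mul_mem (coeffEmb_mem_laurentBaseChange L hf)
      ((laurentBaseChange L F₀).algebraMap_mem _)
  | zero =>
    rw [coeffLin_zero]
    exact zero_mem _
  | add a b _ _ ha hb =>
    rw [coeffLin_add]
    exact add_mem (ha lam) (hb lam)
  | smul c a _ ha =>
    rw [Algebra.smul_def, ← coeffLin_smul'']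
    exact ha _

end

/-- Descent of the field of definition. -/
theorem mem_laurentBaseChange_of_coeffMap {L L' : Type*} [Field L] [Field L'] [Algebra ℚ L]
    [Algebra ℚ L'] [Algebra L L'] (F₀ : IntermediateField ℚ (LaurentSeries ℚ))
    (s : LaurentSeries L) (h : coeffMap (algebraMap L L') s ∈ laurentBaseChange L' F₀) :
    s ∈ laurentBaseChange L F₀ := by
  obtain ⟨p, hp, q, hq, hx⟩ := IntermediateField.mem_adjoin_iff_div.mp h
  rcases eq_or_ne q 0 with rfl | hq0
  · rw [div_zero] at hx
    have hs : s = 0 :=
      coeffMap_injective (algebraMap L L') (algebraMap L L').injective (by rw [hx, map_zero])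
    rw [hs]
    exact zero_mem _
  · obtain ⟨k, hk⟩ : ∃ k, q.coeff k ≠ 0 := by
      by_contra hcon
      push Not at hcon
      exact hq0 (HahnSeries.ext (funext hcon))
    obtain ⟨lam₀, hlam₀⟩ := (Algebra.linearMap L L').exists_leftInverse_of_injective
      (LinearMap.ker_eq_bot.mpr (algebraMap L L').injective)
    have hlam1 : lam₀ 1 = 1 := by
      have := LinearMap.congr_fun hlam₀ 1
      simpa using this
    let lam : L' →ₗ[L] L := lam₀.comp (LinearMap.mulLeft L (q.coeff k)⁻¹)
    have hlamk : lam (q.coeff k) = 1 := by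
      show lam₀ ((q.coeff k)⁻¹ * q.coeff k) = 1
      rw [inv_mul_cancel₀ hk, hlam1]
    have hQ0 : coeffLin lam q ≠ 0 := by
      intro h0
      have h1 : (coeffLin lam q).coeff k = 1 := by rw [coeffLin_coeff, hlamk]
      rw [h0] at h1
      exact zero_ne_one h1
    have hmul : coeffMap (algebraMap L L') s * q = p := by
      rw [hx, div_mul_cancel₀ _ hq0]
    have hkey : s * coeffLin lam q = coeffLin lam p := by
      rw [← coeffLin_mul, hmul]
    have hs : s = coeffLin lam p / coeffLin lam q := by
      rw [← hkey, mul_div_cancel_right₀ _ hQ0]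
    rw [hs]
    exact div_mem (coeffLin_mem_of_mem_adjoin F₀ lam hp) (coeffLin_mem_of_mem_adjoin F₀ lam hq)

end Fermat.Agent.S48.BB.V

end
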