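/-
S48, block BB, sub-block V (architect helper76), leaf B6 (task 2422, helper274):
explicit `t`-expansions of the `SL(2,ℤ)`-translates of `j(dτ)`.
-/
import Fermat.Agent.GAL.Mult.API

set_option autoImplicit false

noncomputable section

namespace Fermat.Agent.S48.BB.V

open UpperHalfPlane ModularCurve CongruenceSubgroup
open Fermat.Agent.S24 Fermat.Agent.S24.B Fermat.Agent.GAL.Mult
open scoped MatrixGroups Real

/-- Sharper form of `S24.B.exists_hasTExp_gen` (same proof): the shape of the expansion. -/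
theorem exists_hasTExp_gen_shape {N : ℕ} [NeZero N] (g : GL (Fin 2) ℝ)
    (α : Matrix (Fin 2) (Fin 2) ℤ) (hα : 0 < α.det) (hN : α.det ∣ (N : ℤ))
    (hg : (g : Matrix (Fin 2) (Fin 2) ℝ) = α.map (Int.cast : ℤ → ℝ)) :
    ∃ (e : ℕ) (_ : NeZero e) (k : ℤ), HasTExp N (fun τ => jfun (g • τ))
      (qExpand Kbar e (twist (zetaK N ^ k) (Jser 1))) := by
  obtain ⟨a, b, d, ha, hd, had, hgcd, hj⟩ := jfun_levelMat Stubs.jfun_smul g α hα hg
  obtain ⟨M, hM⟩ := hN
  have hNpos : (0 : ℤ) < (N : ℤ) := by exact_mod_cast Nat.pos_of_ne_zero (NeZero.ne N)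
  have hMpos : 0 < M := by
    rw [hM] at hNpos
    exact (mul_pos_iff_of_pos_left hα).1 hNpos
  have hepos : 0 < M * a ^ 2 := by positivity
  set e : ℕ := (M * a ^ 2).toNat with he
  have heZ : (e : ℤ) = M * a ^ 2 := Int.toNat_of_nonneg hepos.le
  have hne : NeZero e := ⟨by
    intro h
    rw [h] at heZ
    simp only [Nat.cast_zero] at heZ
    omega⟩
  have hed : (e : ℤ) * d = N * a := by
    rw [heZ, hM, ← had]; ring
  have hξ : iota ((zetaK N ^ (M * a * b) : Kbarˣ) : Kbar) =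
      Complex.exp (2 * π * Complex.I * b / d) := by
    rw [iota_zetaK_zpow]
    congr 1
    have h1 : ((N : ℕ) : ℂ) = (M : ℂ) * a * d := by
      have : ((N : ℕ) : ℤ) = M * a * d := by rw [hM, ← had]; ring
      exact_mod_cast this
    have hM0 : (M : ℂ) ≠ 0 := by exact_mod_cast hMpos.ne'
    have ha0 : (a : ℂ) ≠ 0 := by exact_mod_cast ha.ne'
    have hd0 : (d : ℂ) ≠ 0 := by exact_mod_cast hd.ne'
    rw [h1]
    push_cast
    field_simp
  refine ⟨e, hne, M * a * b, ?_⟩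
  have h := hasTExp_tri (N := N) Stubs.hasTExp_jfun a b d ha hd e hed _ hξ
  have hfun : (fun τ => jfun (g • τ)) = fun τ => jfun (triMat a b d ha hd • τ) := funext hj
  rw [hfun]
  exact h

theorem coe_dilMat_mul_SL (d : ℕ) [NeZero d] (δ : SL(2, ℤ)) :
    ((dilMat d * (δ : GL (Fin 2) ℝ) : GL (Fin 2) ℝ) : Matrix (Fin 2) (Fin 2) ℝ) =
      (!![(d : ℤ), 0; 0, 1] * δ.1).map (Int.cast : ℤ → ℝ) := by
  rw [Units.val_mul]
  ext i j
  fin_cases i <;> fin_cases j <;>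
    simp [dilMat, Matrix.mul_apply, Fin.sum_univ_two, Matrix.vecMul, dotProduct]

/-- The expansions of the translates of `j(dτ)`. -/
theorem exists_texpLL_smul_PsiL_JF (N d : ℕ) [NeZero N] [NeZero d] (hd : d ∣ N) (γ : SL(2, ℤ)) :
    ∃ (e : ℕ) (_ : NeZero e) (k : ℤ),
      texpLL N (γ • PsiL N (JF N d hd)) = qExpand Kbar e (twist (zetaK N ^ k) (Jser 1)) := by
  have hdet : (!![(d : ℤ), 0; 0, 1] * (γ⁻¹).1).det = d := by
    rw [Matrix.det_mul, (γ⁻¹).2, mul_one, Matrix.det_fin_two_of]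
    ring
  have hdpos : (0 : ℤ) < (d : ℤ) := by exact_mod_cast Nat.pos_of_ne_zero (NeZero.ne d)
  obtain ⟨e, he, k, h⟩ := exists_hasTExp_gen_shape (N := N)
    (dilMat d * ((γ⁻¹ : SL(2, ℤ)) : GL (Fin 2) ℝ)) (!![(d : ℤ), 0; 0, 1] * (γ⁻¹).1)
    (by rw [hdet]; exact hdpos) (by rw [hdet]; exact_mod_cast hd) (coe_dilMat_mul_SL d γ⁻¹)
  refine ⟨e, he, k, ?_⟩
  rw [PsiL_apply, ← lnToLL_smul, texpLL_lnToLL, Psi_JF, smul_algebraMap_AL, texpL_algebraMap]
  apply texp_eq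
  convert h using 1
  funext τ
  show jfun (dilMat d • (γ⁻¹ • τ)) = jfun ((dilMat d * ((γ⁻¹ : SL(2, ℤ)) : GL (Fin 2) ℝ)) • τ)
  rw [mul_smul]
  rfl

end Fermat.Agent.S48.BB.V

end
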