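/-
S48 BB-V, leaf A4 (helper293; architect helper76): two facts on `SL(2, ℤ)`.
* `normalClosure_T`: the normal closure of `T` is everything;
* `conj_T_of_mem_Gamma0`: a `Γ₀(N)`-conjugate of `T` is a power of `T` modulo `Γ(N)`.
-/
import Mathlib

set_option autoImplicit false

namespace Fermat.Agent.S48.BB.V

open scoped MatrixGroups in
private theorem sl2_S_eq : ModularGroup.S = ModularGroup.T⁻¹ *
    (ModularGroup.S * ModularGroup.T⁻¹ * ModularGroup.S⁻¹) * ModularGroup.T⁻¹ := by
  decide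

open scoped MatrixGroups in
theorem normalClosure_T : Subgroup.normalClosure {ModularGroup.T} = (⊤ : Subgroup SL(2, ℤ)) := by
  rw [eq_top_iff, ← SpecialLinearGroup.SL2Z_generators, Subgroup.closure_le]
  have hT : ModularGroup.T ∈ Subgroup.normalClosure ({ModularGroup.T} : Set SL(2, ℤ)) :=
    Subgroup.subset_normalClosure (Set.mem_singleton _)
  have hTi := inv_mem hT
  rintro x (rfl | rfl)
  · rw [sl2_S_eq]
    exact mul_mem (mul_mem hTi (Subgroup.normalClosure_normal.conj_mem _ hTi _)) hTi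
  · exact hT

open scoped MatrixGroups in
theorem conj_T_of_mem_Gamma0 (N : ℕ) (b : SL(2, ℤ)) (hb : b ∈ CongruenceSubgroup.Gamma0 N) :
    ∃ k : ℤ, ∃ n ∈ CongruenceSubgroup.Gamma N,
      b * ModularGroup.T * b⁻¹ = ModularGroup.T ^ k * n := by
  rw [CongruenceSubgroup.Gamma0_mem] at hb
  refine ⟨(b 0 0) ^ 2, ModularGroup.T ^ (-((b 0 0) ^ 2)) * (b * ModularGroup.T * b⁻¹), ?_, ?_⟩
  · have hdet : b 0 0 * b 1 1 - b 0 1 * b 1 0 = 1 := by
      have := b.det_coe
      rwa [Matrix.det_fin_two] at this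
    have hM : ((ModularGroup.T ^ (-((b 0 0) ^ 2)) * (b * ModularGroup.T * b⁻¹) : SL(2, ℤ)) :
        Matrix (Fin 2) (Fin 2) ℤ) =
        !![1 - b 0 0 * b 1 0 + (b 0 0) ^ 2 * (b 1 0) ^ 2, - ((b 0 0) ^ 3 * b 1 0);
          - (b 1 0) ^ 2, 1 + b 0 0 * b 1 0] := by
      rw [Matrix.SpecialLinearGroup.coe_mul, Matrix.SpecialLinearGroup.coe_mul,
        Matrix.SpecialLinearGroup.coe_mul, ModularGroup.coe_T_zpow, ModularGroup.coe_T,
        Matrix.SpecialLinearGroup.coe_inv, Matrix.adjugate_fin_two]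
      rw [Matrix.eta_fin_two (b : Matrix (Fin 2) (Fin 2) ℤ)]
      simp only [Matrix.mul_fin_two, Matrix.of_apply, Matrix.cons_val_zero, Matrix.cons_val_one,
        Matrix.cons_val', Matrix.cons_val_fin_one]
      ext i j
      fin_cases i <;> fin_cases j
      · simp
        linear_combination hdet
      · simp
        linear_combination (-(b 0 0) ^ 2) * hdet
      · simp
        ring
      · simp
        linear_combination hdet
    rw [CongruenceSubgroup.Gamma_mem, hM]
    simp [hb]
  · rw [← mul_assoc, ← zpow_add, add_neg_cancel, zpow_zero, one_mul]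

end Fermat.Agent.S48.BB.V
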